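/-
S49 helper: q-coefficient API for weight 2 cusp forms on Gamma0(N), finiteness statements.
-/
import Mathlib
import Fermat.Prelude.Def_FLTPrelim_Modularity
import Fermat.Prelude.Def_CuspForm_HeckeAlgebra
import Fermat.Prelude.Def_CuspForm_IntegralStructure
import Fermat.Prelude.Def_CuspForm_IntegralLattice
import Fermat.Prelude.Thm_CuspForm_intLattice_fg
import Fermat.Prelude.Thm_CuspForm_mem_intLattice_of_mem_heckeAlgebra
import Fermat.Prelude.Thm_ModularFormClass_qCoeff_heckeT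
import Fermat.Prelude.Thm_ModularFormClass_qCoeff_heckeU
import Fermat.Prelude.Thm_CongruenceSubgroup_one_mem_strictPeriods_Gamma0
import Fermat.Prelude.Thm_ModularForm_sturm_bound_Gamma0

set_option autoImplicit false

open ModularFormClass CongruenceSubgroup

namespace Fermat.Agent.S49

variable {N : ℕ}

theorem hΓ (N : ℕ) :
    (1 : ℝ) ∈ (Subgroup.map (Matrix.SpecialLinearGroup.mapGL ℝ) (Gamma0 N)).strictPeriods :=
  CongruenceSubgroup.one_mem_strictPeriods_Gamma0 N

theorem qCoeff_add (f g : CuspForm (Gamma0 N) 2) (n : ℕ) :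
    qCoeff ⇑(f + g) n = qCoeff ⇑f n + qCoeff ⇑g n := by
  simp only [qCoeff, FunLike.coe_add]
  rw [ModularForm.qExpansion_add one_pos (hΓ N) f g, map_add]

theorem qCoeff_smul (c : ℂ) (f : CuspForm (Gamma0 N) 2) (n : ℕ) :
    qCoeff ⇑(c • f) n = c * qCoeff ⇑f n := by
  have h1 : ⇑(c • f) = c • ⇑f := by
    ext z
    simp
  simp only [qCoeff, h1]
  rw [ModularForm.qExpansion_smul one_pos (hΓ N) c f]
  simp

theorem qCoeff_sub (f g : CuspForm (Gamma0 N) 2) (n : ℕ) :
    qCoeff ⇑(f - g) n = qCoeff ⇑f n - qCoeff ⇑g n := by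
  simp only [qCoeff, FunLike.coe_sub]
  rw [ModularForm.qExpansion_sub one_pos (hΓ N) f g, map_sub]

theorem qCoeff_zsmul (c : ℤ) (f : CuspForm (Gamma0 N) 2) (n : ℕ) :
    qCoeff ⇑(c • f) n = c * qCoeff ⇑f n := by
  have h1 : c • f = (c : ℂ) • f := by
    ext z
    simp
  rw [h1, qCoeff_smul]

theorem qCoeff_zero_form (n : ℕ) : qCoeff ⇑(0 : CuspForm (Gamma0 N) 2) n = 0 := by
  simp only [qCoeff, FunLike.coe_zero]
  rw [UpperHalfPlane.qExpansion_zero, map_zero]

/-- the constant term of a cusp form vanishes -/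
theorem qCoeff_zero_index (f : CuspForm (Gamma0 N) 2) : qCoeff ⇑f 0 = 0 :=
  CuspFormClass.qExpansion_coeff_zero f one_pos (hΓ N)

theorem eq_zero_of_qCoeff {f : CuspForm (Gamma0 N) 2} (h : ∀ n, qCoeff ⇑f n = 0) : f = 0 := by
  have : Fact (IsCusp OnePoint.infty
      (Subgroup.map (Matrix.SpecialLinearGroup.mapGL ℝ) (Gamma0 N))) :=
    ⟨Subgroup.isCusp_of_mem_strictPeriods one_pos (hΓ N)⟩
  have h0 : UpperHalfPlane.qExpansion 1 ⇑f = 0 := by
    ext n
    simpa [qCoeff] using h n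
  have h1 : (⇑f : UpperHalfPlane → ℂ) = 0 :=
    (UpperHalfPlane.qExpansion_eq_zero_iff one_pos
      (SlashInvariantFormClass.periodic_comp_ofComplex f (hΓ N)) (holo f)
      (bdd_at_infty f)).mp h0
  exact DFunLike.coe_injective (h1.trans FunLike.coe_zero.symm)

theorem ext_qCoeff {f g : CuspForm (Gamma0 N) 2} (h : ∀ n, qCoeff ⇑f n = qCoeff ⇑g n) : f = g := by
  rw [← sub_eq_zero]
  refine eq_zero_of_qCoeff fun n => ?_
  rw [qCoeff_sub, h n, sub_self]

theorem qCoeff_heckeTLin {ℓ : ℕ} (hℓ : ℓ.Prime) (hℓN : ¬ ℓ ∣ N) (f : CuspForm (Gamma0 N) 2) (n : ℕ) :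
    qCoeff ⇑(CuspForm.heckeTLin 2 hℓ hℓN f) n =
      qCoeff ⇑f (ℓ * n) + (ℓ : ℂ) * (if ℓ ∣ n then qCoeff ⇑f (n / ℓ) else 0) := by
  rw [CuspForm.coe_heckeTLin_apply, ModularFormClass.qCoeff_heckeT f (hΓ N) hℓ.ne_zero n,
    ModularForm.coeffHeckeT_apply, mul_comm n ℓ]
  split_ifs <;> simp

theorem qCoeff_heckeULin [NeZero N] {q : ℕ} (hq : q.Prime) (hqN : q ∣ N) (f : CuspForm (Gamma0 N) 2)
    (n : ℕ) :
    qCoeff ⇑(CuspForm.heckeULin 2 hqN f) n = qCoeff ⇑f (q * n) := by
  rw [CuspForm.coe_heckeULin_apply, ModularFormClass.qCoeff_heckeU f (hΓ N) hq.ne_zero n,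
    ModularForm.coeffHeckeU_apply, mul_comm n q]

/-- truncation of the q-expansion at the Sturm bound, as a `ℂ`-linear map -/
noncomputable def truncC (N : ℕ) :
    CuspForm (Gamma0 N) 2 →ₗ[ℂ] (Fin (P2MW.S_CuspForm_intLattice_fg.W3WsD.sturmB N 2 + 1) → ℂ) where
  toFun f i := qCoeff ⇑f i
  map_add' f g := by
    funext i
    exact qCoeff_add f g i
  map_smul' c f := by
    funext i
    simp only [Pi.smul_apply, RingHom.id_apply, smul_eq_mul]
    rw [qCoeff_smul]

theorem truncC_injective (N : ℕ) [NeZero N] : Function.Injective (truncC N) := by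
  intro f g hfg
  exact P2MW.S_CuspForm_intLattice_fg.W3WsD.trunc_injective N 2 hfg

theorem finiteDimensional_cuspForm [NeZero N] : FiniteDimensional ℂ (CuspForm (Gamma0 N) 2) :=
  Module.Finite.of_injective (truncC N) (truncC_injective N)

theorem qIntegralSet_subset_intLattice (N : ℕ) :
    CuspForm.qIntegralSet N ⊆ (CuspForm.intLattice N 2 : Set (CuspForm (Gamma0 N) 2)) := by
  intro f hf
  refine Submodule.subset_span fun n => ?_
  obtain ⟨m, hm⟩ := Subring.mem_bot.mp (hf n)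
  exact ⟨m, hm.symm⟩

theorem mem_intLattice_iff (f : CuspForm (Gamma0 N) 2) :
    f ∈ CuspForm.intLattice N 2 ↔ ∀ n : ℕ, ∃ m : ℤ, qCoeff ⇑f n = (m : ℂ) :=
  P2MW.S_CuspForm_intLattice_fg.W3WsD.mem_intLattice_iff f

/-- restriction of a Hecke operator to the integral lattice -/
noncomputable def latticeRestrict (N : ℕ) [NeZero N] :
    CuspForm.heckeAlgebra N 2 ∅ →ₗ[ℤ] (CuspForm.intLattice N 2 →ₗ[ℤ] CuspForm.intLattice N 2) where
  toFun t :=
    { toFun := fun x => ⟨(t : Module.End ℂ (CuspForm (Gamma0 N) 2)) x,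
        CuspForm.mem_intLattice_of_mem_heckeAlgebra one_le_two t.2 x.2⟩
      map_add' := fun x y => by
        ext1
        simp
      map_smul' := fun c x => by
        ext1
        simp }
  map_add' s t := by
    ext x
    simp
  map_smul' c t := by
    ext x
    simp

theorem latticeRestrict_injective [NeZero N] (h : CuspForm.HasIntegralBasis N) :
    Function.Injective (latticeRestrict N) := by
  intro s t hst
  apply Subtype.ext
  apply LinearMap.ext_on h
  intro x hx
  have := congrArg (fun F => ((F ⟨x, qIntegralSet_subset_intLattice N hx⟩ :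
    CuspForm.intLattice N 2) : CuspForm (Gamma0 N) 2)) hst
  exact this

theorem heckeAlgebra_finite [NeZero N] (h : CuspForm.HasIntegralBasis N) :
    Module.Finite ℤ (CuspForm.heckeAlgebra N 2 ∅) := by
  have : Module.Finite ℤ (CuspForm.intLattice N 2) :=
    Module.Finite.iff_fg.mpr (CuspForm.intLattice_fg N 2)
  have : IsAddTorsionFree (CuspForm (Gamma0 N) 2) := IsAddTorsionFree.of_isTorsionFree ℂ _
  have : Module.Free ℤ (CuspForm.intLattice N 2) := inferInstance
  exact Module.Finite.of_injective (latticeRestrict N) (latticeRestrict_injective h)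

end Fermat.Agent.S49
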