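/-
S49 helper: a commuting family of operators (image of a commutative ring) on a nonzero
finite-dimensional complex vector space has a common eigenvector.
-/
import Mathlib

set_option autoImplicit false

namespace Fermat.Agent.S49

theorem exists_common_eigenvector_aux {V : Type*} [AddCommGroup V] [Module ℂ V]
    [FiniteDimensional ℂ V] {A : Type*} [CommRing A] (φ : A →+* Module.End ℂ V) :
    ∀ (n : ℕ) (W : Submodule ℂ V), Module.finrank ℂ W = n → W ≠ ⊥ →
      (∀ t, ∀ w ∈ W, φ t w ∈ W) →
      ∃ v ∈ W, v ≠ 0 ∧ ∀ t, ∃ c : ℂ, φ t v = c • v := by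
  intro n
  induction n using Nat.strong_induction_on with
  | _ n ih =>
    intro W hn hW hst
    by_cases hsc : ∀ t, ∃ c : ℂ, ∀ w ∈ W, φ t w = c • w
    · obtain ⟨v, hv, hv0⟩ := Submodule.exists_mem_ne_zero_of_ne_bot hW
      exact ⟨v, hv, hv0, fun t => (hsc t).imp fun c hc => hc v hv⟩
    · push Not at hsc
      obtain ⟨t, ht⟩ := hsc
      let f : Module.End ℂ W := (φ t).restrict (hst t)
      haveI : Nontrivial W := Submodule.nontrivial_iff_ne_bot.mpr hW
      obtain ⟨μ, hμ⟩ := Module.End.exists_eigenvalue f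
      obtain ⟨w, hw⟩ := hμ.exists_hasEigenvector
      have hw1 : φ t (w : V) = μ • (w : V) := by
        have := hw.apply_eq_smul
        exact congrArg Subtype.val this
      have hw0 : (w : V) ≠ 0 := fun h => hw.2 (Subtype.ext h)
      let W' : Submodule ℂ V :=
        { carrier := {x | x ∈ W ∧ φ t x = μ • x}
          add_mem' := by
            rintro a b ⟨ha, ha'⟩ ⟨hb, hb'⟩
            exact ⟨W.add_mem ha hb, by rw [map_add, ha', hb', smul_add]⟩
          zero_mem' := ⟨W.zero_mem, by simp⟩
          smul_mem' := by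
            rintro c a ⟨ha, ha'⟩
            exact ⟨W.smul_mem c ha, by rw [map_smul, ha', smul_comm]⟩ }
      have hW'le : W' ≤ W := fun x hx => hx.1
      have hW'lt : W' < W := by
        refine lt_of_le_of_ne hW'le ?_
        intro heq
        obtain ⟨w0, hw0W, hw0ne⟩ := ht μ
        have : w0 ∈ W' := heq ▸ hw0W
        exact hw0ne this.2
      have hW'ne : W' ≠ ⊥ := by
        intro h
        have hmem : (w : V) ∈ W' := ⟨w.2, hw1⟩
        rw [h, Submodule.mem_bot] at hmem
        exact hw0 hmem
      have hst' : ∀ s, ∀ x ∈ W', φ s x ∈ W' := by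
        rintro s x ⟨hx, hx'⟩
        refine ⟨hst s x hx, ?_⟩
        have hcomm : φ t (φ s x) = φ s (φ t x) := by
          have h1 : (φ t * φ s) x = (φ s * φ t) x := by
            rw [← map_mul, ← map_mul, mul_comm]
          simpa using h1
        rw [hcomm, hx', map_smul]
      have hlt : Module.finrank ℂ W' < n := hn ▸ Submodule.finrank_lt_finrank_of_lt hW'lt
      obtain ⟨v, hv, hv0, hvt⟩ := ih _ hlt W' rfl hW'ne hst'
      exact ⟨v, hW'le hv, hv0, hvt⟩

/-- Lemma A1. -/
theorem exists_common_eigenvector {V : Type*} [AddCommGroup V] [Module ℂ V] [FiniteDimensional ℂ V]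
    {A : Type*} [CommRing A] (φ : A →+* Module.End ℂ V) (W : Submodule ℂ V) (hW : W ≠ ⊥)
    (hstable : ∀ t, ∀ w ∈ W, φ t w ∈ W) :
    ∃ (v : V) (χ : A →+* ℂ), v ∈ W ∧ v ≠ 0 ∧ ∀ t, φ t v = χ t • v := by
  obtain ⟨v, hv, hv0, hvt⟩ := exists_common_eigenvector_aux φ _ W rfl hW hstable
  choose c hc using hvt
  have hinj : Function.Injective fun a : ℂ => a • v := smul_left_injective ℂ hv0
  refine ⟨v, { toFun := c, map_one' := ?_, map_mul' := ?_, map_zero' := ?_, map_add' := ?_ },
    hv, hv0, hc⟩
  · apply hinj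
    show c 1 • v = (1 : ℂ) • v
    rw [← hc, map_one, one_smul, Module.End.one_apply]
  · intro a b
    apply hinj
    show c (a * b) • v = (c a * c b) • v
    rw [← hc, map_mul, Module.End.mul_apply, hc b, map_smul, hc a, smul_smul, mul_comm]
  · apply hinj
    show c 0 • v = (0 : ℂ) • v
    rw [← hc, map_zero, zero_smul, LinearMap.zero_apply]
  · intro a b
    apply hinj
    show c (a + b) • v = (c a + c b) • v
    rw [← hc, map_add, LinearMap.add_apply, hc a, hc b, add_smul]

end Fermat.Agent.S49
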