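/-
S49 helper: formal Hecke eigensystems are multiplicative and satisfy the prime-power recursion.
-/
import Mathlib
import Fermat.Prelude.Def_FormalHecke_Eigensystem

set_option autoImplicit false

namespace Fermat.Agent.S49

/-- Lemma C. -/
theorem isRecursive_of_isEigensystem {R : Type*} [CommRing R] {e a : ℕ → R}
    (h : FormalHecke.IsEigensystem e a) : FormalHecke.IsRecursive e a := by
  obtain ⟨h1, hE⟩ := h
  refine ⟨h1, ?_, ?_⟩
  · intro m
    induction m using Nat.strong_induction_on with
    | _ m ih =>
      intro n hmn
      rcases Nat.eq_zero_or_pos m with rfl | hmpos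
      · have hn : n = 1 := by simpa using hmn
        subst hn
        simp [h1]
      rcases Nat.eq_or_lt_of_le (Nat.succ_le_of_lt hmpos) with hm1 | hm2
      · have : m = 1 := hm1.symm
        subst this
        simp [h1]
      · have hm1 : m ≠ 1 := by omega
        have hl : (Nat.minFac m).Prime := Nat.minFac_prime hm1
        obtain ⟨m1, hm⟩ := Nat.minFac_dvd m
        set l := Nat.minFac m with hldef
        have hl2 : 2 ≤ l := hl.two_le
        have hm1pos : 0 < m1 := by
          rcases Nat.eq_zero_or_pos m1 with h0 | h0
          · rw [h0] at hm; omega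
          · exact h0
        have hm1lt : m1 < m := by
          rw [hm]; nlinarith
        have hcop1 : m1.Coprime n := Nat.Coprime.coprime_dvd_left ⟨l, by rw [hm, mul_comm]⟩ hmn
        have hln : ¬ l ∣ n := by
          intro hd
          have : l ∣ Nat.gcd m n := Nat.dvd_gcd ⟨m1, hm⟩ hd
          rw [hmn] at this
          exact hl.one_lt.ne' (Nat.dvd_one.mp this)
        have e1 := hE l hl (m1 * n)
        have e2 := hE l hl m1
        have ihm1 := ih m1 hm1lt n hcop1
        have hmn' : m * n = l * (m1 * n) := by rw [hm, mul_assoc]
        by_cases hd : l ∣ m1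
        · obtain ⟨m2, hm2⟩ := hd
          have hd1 : l ∣ m1 * n := Dvd.dvd.mul_right ⟨m2, hm2⟩ n
          have hd0 : l ∣ m1 := ⟨m2, hm2⟩
          have hdiv1 : m1 * n / l = m2 * n := by
            rw [hm2, mul_assoc]; exact Nat.mul_div_cancel_left _ hl.pos
          have hdiv2 : m1 / l = m2 := by
            rw [hm2]; exact Nat.mul_div_cancel_left _ hl.pos
          have hm2lt : m2 < m := by
            have : m2 ≤ m1 := by rw [hm2]; nlinarith
            omega
          have hcop2 : m2.Coprime n :=
            Nat.Coprime.coprime_dvd_left ⟨l, by rw [hm2, mul_comm]⟩ hcop1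
          have ihm2 := ih m2 hm2lt n hcop2
          rw [if_pos hd1, hdiv1, ihm1, ihm2] at e1
          rw [if_pos hd0, hdiv2] at e2
          rw [hmn']
          have e3 : a m = a (l * m1) := by rw [← hm]
          rw [e3]
          linear_combination e1 - a n * e2
        · have hd1 : ¬ l ∣ m1 * n := by
            intro hh
            rcases (Nat.Prime.dvd_mul hl).mp hh with h' | h'
            · exact hd h'
            · exact hln h'
          rw [if_neg hd1, ihm1] at e1
          rw [if_neg hd] at e2
          rw [hmn']
          have e3 : a m = a (l * m1) := by rw [← hm]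
          rw [e3]
          linear_combination e1 - a n * e2
  · intro l r hl
    have e1 := hE l hl (l ^ (r + 1))
    have hd : l ∣ l ^ (r + 1) := dvd_pow_self l (Nat.succ_ne_zero r)
    have hdiv : l ^ (r + 1) / l = l ^ r := by
      rw [pow_succ, mul_comm]; exact Nat.mul_div_cancel_left _ hl.pos
    have hpow : l * l ^ (r + 1) = l ^ (r + 2) := by ring
    rw [if_pos hd, hdiv, hpow] at e1
    linear_combination e1

end Fermat.Agent.S49
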