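/-
S49 helper: a simultaneous eigenvector of the full Hecke algebra can be normalised to a
normalised eigenform.
-/
import Mathlib
import Fermat.Agent.S49.Basic
import Fermat.Agent.S49.Formal

set_option autoImplicit false

open ModularFormClass CongruenceSubgroup

namespace Fermat.Agent.S49

variable {N : ℕ}

/-- A sequence satisfying the Hecke relations with `b 0 = 0` and `b 1 = 0` vanishes. -/
theorem eq_zero_of_hecke_relations {e lam b : ℕ → ℂ} (h0 : b 0 = 0) (h1 : b 1 = 0)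
    (hrel : ∀ ℓ : ℕ, ℓ.Prime → ∀ n : ℕ,
      b (ℓ * n) + e ℓ * (if ℓ ∣ n then b (n / ℓ) else 0) = lam ℓ * b n) :
    ∀ n, b n = 0 := by
  intro n
  induction n using Nat.strong_induction_on with
  | _ n ih =>
    rcases Nat.lt_or_ge n 2 with hn | hn
    · interval_cases n
      · exact h0
      · exact h1
    · have hn1 : n ≠ 1 := by omega
      have hp : (n.minFac).Prime := Nat.minFac_prime hn1
      obtain ⟨m, hm⟩ := Nat.minFac_dvd n
      have hmpos : 0 < m := by
        rcases Nat.eq_zero_or_pos m with h | h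
        · subst h; omega
        · exact h
      have hmlt : m < n := by
        calc m = 1 * m := (one_mul m).symm
          _ < n.minFac * m := Nat.mul_lt_mul_of_pos_right hp.one_lt hmpos
          _ = n := hm.symm
      have hr := hrel n.minFac hp m
      rw [← hm, ih m hmlt, mul_zero] at hr
      have hdiv : (if n.minFac ∣ m then b (m / n.minFac) else 0) = 0 := by
        split_ifs
        · exact ih _ (lt_of_le_of_lt (Nat.div_le_self _ _) hmlt)
        · rfl
      rw [hdiv, mul_zero, add_zero] at hr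
      exact hr

/-- Lemma E. -/
theorem exists_normalizedEigenform_of_eigenvector [NeZero N] (v : CuspForm (Gamma0 N) 2) (hv : v ≠ 0)
    (χ : CuspForm.heckeAlgebra N 2 ∅ →+* ℂ)
    (h : ∀ t : CuspForm.heckeAlgebra N 2 ∅,
      (t : Module.End ℂ (CuspForm (Gamma0 N) 2)) v = χ t • v) :
    ∃ f : CuspForm (Gamma0 N) 2, f.IsNormalizedEigenform ∧
      ∀ (ℓ : ℕ) (hℓ : ℓ.Prime) (hℓN : ¬ ℓ ∣ N),
        qCoeff ⇑f ℓ = χ (CuspForm.heckeAlgebra.T hℓ hℓN (Set.notMem_empty ℓ)) := by
  classical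
  set b : ℕ → ℂ := fun n => qCoeff ⇑v n with hb
  set e : ℕ → ℂ := fun ℓ => if ℓ ∣ N then 0 else (ℓ : ℂ) with he
  set lam : ℕ → ℂ := fun ℓ =>
    if hℓ : ℓ.Prime then
      (if hN : ℓ ∣ N then χ (CuspForm.heckeAlgebra.U hℓ hN (Set.notMem_empty ℓ))
        else χ (CuspForm.heckeAlgebra.T hℓ hN (Set.notMem_empty ℓ)))
    else 0 with hlam
  have hrel : ∀ ℓ : ℕ, ℓ.Prime → ∀ n : ℕ,
      b (ℓ * n) + e ℓ * (if ℓ ∣ n then b (n / ℓ) else 0) = lam ℓ * b n := by
    intro ℓ hℓ n
    by_cases hN : ℓ ∣ N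
    · have h1 := h (CuspForm.heckeAlgebra.U hℓ hN (Set.notMem_empty ℓ))
      rw [CuspForm.heckeAlgebra.coe_U] at h1
      have h2 := congrArg (fun g : CuspForm (Gamma0 N) 2 => qCoeff ⇑g n) h1
      simp only [qCoeff_heckeULin hℓ hN, qCoeff_smul] at h2
      simp only [hb, he, hlam, hN, hℓ, if_true, dif_pos, zero_mul, add_zero]
      exact h2
    · have h1 := h (CuspForm.heckeAlgebra.T hℓ hN (Set.notMem_empty ℓ))
      rw [CuspForm.heckeAlgebra.coe_T] at h1
      have h2 := congrArg (fun g : CuspForm (Gamma0 N) 2 => qCoeff ⇑g n) h1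
      simp only [qCoeff_heckeTLin hℓ hN, qCoeff_smul] at h2
      simp only [hb, he, hlam, hN, hℓ, if_false, dif_pos, dif_neg, not_false_eq_true]
      exact h2
  have hb1 : b 1 ≠ 0 := by
    intro h1
    apply hv
    apply ext_qCoeff
    intro n
    rw [qCoeff_zero_form]
    exact eq_zero_of_hecke_relations (qCoeff_zero_index v) h1 hrel n
  have hlam_eq : ∀ ℓ : ℕ, ℓ.Prime → (b 1)⁻¹ * b ℓ = lam ℓ := by
    intro ℓ hℓ
    have h1 := hrel ℓ hℓ 1
    have hnd : ¬ ℓ ∣ 1 := by
      intro hd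
      exact hℓ.one_lt.ne' (Nat.dvd_one.mp hd)
    rw [if_neg hnd, mul_zero, add_zero, mul_one] at h1
    rw [h1]
    field_simp
  set f : CuspForm (Gamma0 N) 2 := (b 1)⁻¹ • v with hf
  have hc : ∀ n, qCoeff ⇑f n = (b 1)⁻¹ * b n := fun n => qCoeff_smul _ _ _
  have heig : FormalHecke.IsEigensystem e (fun n => qCoeff ⇑f n) := by
    refine ⟨?_, ?_⟩
    · show qCoeff ⇑f 1 = 1
      rw [hc]
      exact inv_mul_cancel₀ hb1
    · intro ℓ hℓ n
      show qCoeff ⇑f (ℓ * n) + e ℓ * (if ℓ ∣ n then qCoeff ⇑f (n / ℓ) else 0)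
        = qCoeff ⇑f ℓ * qCoeff ⇑f n
      rw [hc, hc ℓ, hc n, hc (n / ℓ), hlam_eq ℓ hℓ]
      have h1 := hrel ℓ hℓ n
      split_ifs at h1 ⊢ with hd
      · linear_combination (b 1)⁻¹ * h1
      · linear_combination (b 1)⁻¹ * h1
  obtain ⟨r1, rmul, rpow⟩ := isRecursive_of_isEigensystem heig
  refine ⟨f, ⟨r1, rmul, ?_, ?_⟩, ?_⟩
  · intro p r hp hpN
    have := rpow p r hp
    simp only [he, hpN, if_false] at this
    exact this
  · intro p r hp hpN
    have := rpow p r hp
    simp only [he, hpN, if_true, zero_mul, sub_zero] at this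
    exact this
  · intro ℓ hℓ hℓN
    rw [hc, hlam_eq ℓ hℓ]
    simp only [hlam, hℓ, hℓN, dif_pos, dif_neg, not_false_eq_true]

end Fermat.Agent.S49
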