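/-
S49 helper: Deligne-Serre style lifting, abstract form.
-/
import Mathlib

set_option autoImplicit false

namespace Fermat.Agent.S49

open scoped IsMulCommutative in
/-- Lemma A. -/
theorem exists_eigenvector_ker_le {V : Type*} [AddCommGroup V] [Module ℂ V] [FiniteDimensional ℂ V]
    {A : Type*} [CommRing A] [Module.Finite ℤ A] (φ : A →+* Module.End ℂ V)
    (hφ : Function.Injective φ) (𝔪 : Ideal A) [𝔪.IsPrime] :
    ∃ (v : V) (χ : A →+* ℂ), v ≠ 0 ∧ (∀ t, φ t v = χ t • v) ∧ RingHom.ker χ ≤ 𝔪 := by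
  classical
  -- the commutative `ℂ`-subalgebra generated by the image of `φ`
  let B : Subalgebra ℂ (Module.End ℂ V) := Algebra.adjoin ℂ (Set.range φ)
  have hcomm : ∀ x ∈ Set.range φ, ∀ y ∈ Set.range φ, x * y = y * x := by
    rintro _ ⟨x, rfl⟩ _ ⟨y, rfl⟩
    rw [← map_mul, ← map_mul, mul_comm]
  have : IsMulCommutative B := Algebra.isMulCommutative_adjoin ℂ hcomm
  let _ : CommRing B := inferInstance
  let ι : A →+* B := φ.codRestrict B (fun t => Algebra.subset_adjoin ⟨t, rfl⟩)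
  have hι : Function.Injective ι := fun x y hxy => hφ (congrArg Subtype.val hxy)
  have : FiniteDimensional ℂ B := inferInstance
  have : IsArtinianRing B := IsArtinianRing.of_finite ℂ B
  have : IsNoetherianRing B := inferInstance
  have : Module.Finite B V := Module.Finite.of_restrictScalars_finite ℂ B V
  -- a prime of `B` avoiding the image of the complement of `𝔪`
  obtain ⟨𝔫, h𝔫prime, -, h𝔫disj⟩ := Ideal.exists_le_prime_disjoint (⊥ : Ideal B)
    (𝔪.primeCompl.map ι) (by
      rw [Set.disjoint_left]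
      rintro x hx ⟨t, ht, rfl⟩
      have h0 : ι t = 0 := by simpa using hx
      have : t = 0 := hι (by rw [h0, map_zero])
      exact ht (this ▸ 𝔪.zero_mem))
  have h𝔫max : 𝔫.IsMaximal := IsArtinianRing.isMaximal_of_isPrime 𝔫
  have hann : Module.annihilator B V = ⊥ := by
    rw [eq_bot_iff]
    intro b hb
    rw [Module.mem_annihilator] at hb
    rw [Ideal.mem_bot]
    apply Subtype.ext
    apply LinearMap.ext
    intro v
    exact hb v
  have hmin : 𝔫 ∈ (Module.annihilator B V).minimalPrimes := by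
    rw [hann]
    refine ⟨⟨h𝔫prime, bot_le⟩, ?_⟩
    rintro 𝔮 ⟨h𝔮, -⟩ hle
    have : 𝔮.IsMaximal := IsArtinianRing.isMaximal_of_isPrime 𝔮
    exact (this.eq_of_le h𝔫prime.ne_top hle).ge
  have hass : IsAssociatedPrime 𝔫 V :=
    Module.associatedPrimes.minimalPrimes_annihilator_subset_associatedPrimes B V hmin
  obtain ⟨-, v, hv⟩ := isAssociatedPrime_iff.mp hass
  have hv0 : v ≠ 0 := by
    rintro rfl
    apply h𝔫prime.ne_top
    rw [hv, Ideal.eq_top_iff_one, Submodule.mem_colon_singleton]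
    simp
  have hkill : ∀ b ∈ 𝔫, (b : Module.End ℂ V) v = 0 := by
    intro b hb
    rw [hv, Submodule.mem_colon_singleton, Submodule.mem_bot] at hb
    exact hb
  -- the residue field of `𝔫` is `ℂ`
  let _ : Field (B ⧸ 𝔫) := Ideal.Quotient.field 𝔫
  have hbij : Function.Bijective (algebraMap ℂ (B ⧸ 𝔫)) :=
    IsAlgClosed.algebraMap_bijective_of_isIntegral
  let e : ℂ ≃ₐ[ℂ] (B ⧸ 𝔫) := AlgEquiv.ofBijective (Algebra.ofId ℂ _) hbij
  let χB : B →+* ℂ := (e.symm : (B ⧸ 𝔫) →+* ℂ).comp (Ideal.Quotient.mk 𝔫)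
  have hχB : ∀ b : B, b - algebraMap ℂ B (χB b) ∈ 𝔫 := by
    intro b
    rw [← Ideal.Quotient.eq]
    have h1 : e (χB b) = Ideal.Quotient.mk 𝔫 b := e.apply_symm_apply _
    rw [← h1]
    rfl
  refine ⟨v, χB.comp ι, hv0, ?_, ?_⟩
  · intro t
    have h1 := hkill _ (hχB (ι t))
    have h2 : ((ι t - algebraMap ℂ B (χB (ι t)) : B) : Module.End ℂ V) v
        = φ t v - χB (ι t) • v := rfl
    rw [h2, sub_eq_zero] at h1
    exact h1
  · intro t ht
    by_contra hmem
    have h1 : ι t ∈ 𝔫 := by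
      have h2 := hχB (ι t)
      rw [show χB (ι t) = 0 from ht] at h2
      simpa using h2
    exact Set.disjoint_left.mp h𝔫disj h1 ⟨t, hmem, rfl⟩

end Fermat.Agent.S49
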