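/-
S49 helper: lying over for `A → integralClosure ℤ ℂ`.
-/
import Mathlib

set_option autoImplicit false

namespace Fermat.Agent.S49

/-- Lemma B. -/
theorem exists_maximal_over {A : Type*} [CommRing A] [Algebra.IsIntegral ℤ A] (χ : A →+* ℂ)
    (𝔪 : Ideal A) [𝔪.IsPrime] (hker : RingHom.ker χ ≤ 𝔪) (p : ℕ) (hp : p.Prime)
    (hpm : (p : A) ∈ 𝔪) :
    ∃ 𝔪' : Ideal (integralClosure ℤ ℂ), 𝔪'.IsMaximal ∧ (p : integralClosure ℤ ℂ) ∈ 𝔪' ∧
      ∀ t ∈ 𝔪, ∀ c : integralClosure ℤ ℂ, (c : ℂ) = χ t → c ∈ 𝔪' := by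
  classical
  -- every value of χ is integral over ℤ
  have hint : ∀ t : A, χ t ∈ integralClosure ℤ ℂ := fun t =>
    (Algebra.IsIntegral.isIntegral (R := ℤ) t).map (χ.toIntAlgHom)
  -- corestrict
  let χ' : A →+* integralClosure ℤ ℂ :=
    χ.codRestrict (integralClosure ℤ ℂ).toSubring hint
  have hχ' : ∀ t, ((χ' t : integralClosure ℤ ℂ) : ℂ) = χ t := fun t => rfl
  let _ : Algebra A (integralClosure ℤ ℂ) := χ'.toAlgebra
  have : IsScalarTower ℤ A (integralClosure ℤ ℂ) :=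
    IsScalarTower.of_algebraMap_eq' (Subsingleton.elim _ _)
  have : Algebra.IsIntegral ℤ (integralClosure ℤ ℂ) := inferInstance
  have : Algebra.IsIntegral A (integralClosure ℤ ℂ) :=
    Algebra.IsIntegral.tower_top (R := ℤ) (S := A) (T := integralClosure ℤ ℂ)
  have hkerle : RingHom.ker (algebraMap A (integralClosure ℤ ℂ)) ≤ 𝔪 := by
    intro t ht
    apply hker
    rw [RingHom.mem_ker] at ht ⊢
    have : ((χ' t : integralClosure ℤ ℂ) : ℂ) = 0 := by
      have h2 : χ' t = 0 := ht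
      rw [h2]; rfl
    rw [← hχ' t, this]
  obtain ⟨Q, hQprime, hQ⟩ :=
    Ideal.exists_ideal_over_prime_of_isIntegral_of_isDomain (S := integralClosure ℤ ℂ) 𝔪 hkerle
  have hmem : ∀ t ∈ 𝔪, χ' t ∈ Q := by
    intro t ht
    have : t ∈ Q.comap (algebraMap A (integralClosure ℤ ℂ)) := by rw [hQ]; exact ht
    exact this
  have hpQ : (p : integralClosure ℤ ℂ) ∈ Q := by
    have := hmem _ hpm
    simpa using this
  -- maximality
  have hQmax : Q.IsMaximal := by
    have hcomap : (Q.comap (algebraMap ℤ (integralClosure ℤ ℂ))).IsMaximal := by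
      have hprime : (Q.comap (algebraMap ℤ (integralClosure ℤ ℂ))).IsPrime :=
        Ideal.comap_isPrime _ _
      have hne : Q.comap (algebraMap ℤ (integralClosure ℤ ℂ)) ≠ ⊥ := by
        intro h
        have hpz : (p : ℤ) ∈ Q.comap (algebraMap ℤ (integralClosure ℤ ℂ)) := by
          rw [Ideal.mem_comap]
          simpa using hpQ
        rw [h, Ideal.mem_bot] at hpz
        exact hp.ne_zero (by exact_mod_cast hpz)
      exact hprime.isMaximal hne
    exact Ideal.isMaximal_of_isIntegral_of_isMaximal_comap (R := ℤ) Q hcomap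
  refine ⟨Q, hQmax, hpQ, ?_⟩
  intro t ht c hc
  have : c = χ' t := Subtype.ext (by rw [hc, hχ'])
  rw [this]
  exact hmem t ht

end Fermat.Agent.S49
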