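/-
S49 helper: the maximal ideal of the Hecke algebra cut out by the mod 3 eigenform.
-/
import Mathlib
import Fermat.Agent.S49.Basic
import Fermat.Prelude.Def_FormalHecke_Eigensystem
import Fermat.Prelude.Def_ModularForm_EisensteinChiNegThree

set_option autoImplicit false

open ModularFormClass CongruenceSubgroup EisensteinWeightOne

namespace Fermat.Agent.S49

variable {N : ℕ}

theorem three_dvd_bridgeProduct_sub (a : ℕ → ℤ) (n : ℕ) :
    (3 : ℤ) ∣ (bridgeProduct a).coeff n - a n := by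
  have h : e1Chi3In ℤ = 1 + PowerSeries.C 3 *
      PowerSeries.mk (fun n => if n = 0 then 0 else 2 * sigmaChi n) := by
    ext n
    rw [map_add, PowerSeries.coeff_C_mul, PowerSeries.coeff_mk, PowerSeries.coeff_one]
    rcases eq_or_ne n 0 with rfl | hn
    · simp [e1Chi3In, e1Chi3]
    · simp [e1Chi3In, e1Chi3, hn]; ring
  unfold bridgeProduct
  rw [h, mul_add, mul_one, mul_left_comm, map_add, PowerSeries.coeff_mk, PowerSeries.coeff_C_mul]
  simp

theorem three_dvd_sub_chiNegThree (ℓ : ℕ) : (3 : ℤ) ∣ (ℓ : ℤ) - chiNegThree ℓ := by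
  unfold chiNegThree
  split_ifs <;> omega

/-- all `q`-coefficients are integers divisible by 3 -/
def Div3 (g : CuspForm (Gamma0 N) 2) : Prop := ∀ n, ∃ m : ℤ, qCoeff ⇑g n = 3 * (m : ℂ)

theorem Div3.zero : Div3 (0 : CuspForm (Gamma0 N) 2) :=
  fun n => ⟨0, by rw [qCoeff_zero_form]; simp⟩

theorem Div3.add {g h : CuspForm (Gamma0 N) 2} (hg : Div3 g) (hh : Div3 h) : Div3 (g + h) := by
  intro n
  obtain ⟨m, hm⟩ := hg n
  obtain ⟨m', hm'⟩ := hh n
  exact ⟨m + m', by rw [qCoeff_add, hm, hm']; push_cast; ring⟩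

theorem Div3.sub {g h : CuspForm (Gamma0 N) 2} (hg : Div3 g) (hh : Div3 h) : Div3 (g - h) := by
  intro n
  obtain ⟨m, hm⟩ := hg n
  obtain ⟨m', hm'⟩ := hh n
  exact ⟨m - m', by rw [qCoeff_sub, hm, hm']; push_cast; ring⟩

theorem Div3.zsmul (c : ℤ) {g : CuspForm (Gamma0 N) 2} (hg : Div3 g) : Div3 (c • g) := by
  intro n
  obtain ⟨m, hm⟩ := hg n
  exact ⟨c * m, by rw [qCoeff_zsmul, hm]; push_cast; ring⟩

theorem Div3.heckeT {ℓ : ℕ} (hℓ : ℓ.Prime) (hℓN : ¬ ℓ ∣ N) {g : CuspForm (Gamma0 N) 2}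
    (hg : Div3 g) : Div3 (CuspForm.heckeTLin 2 hℓ hℓN g) := by
  intro n
  obtain ⟨m, hm⟩ := hg (ℓ * n)
  obtain ⟨m', hm'⟩ := hg (n / ℓ)
  rw [qCoeff_heckeTLin, hm, hm']
  split_ifs
  · exact ⟨m + ℓ * m', by push_cast; ring⟩
  · exact ⟨m, by ring⟩

theorem Div3.heckeU [NeZero N] {q : ℕ} (hq : q.Prime) (hqN : q ∣ N) {g : CuspForm (Gamma0 N) 2}
    (hg : Div3 g) : Div3 (CuspForm.heckeULin 2 hqN g) := by
  intro n
  obtain ⟨m, hm⟩ := hg (q * n)
  exact ⟨m, by rw [qCoeff_heckeULin hq, hm]⟩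

theorem algebraMap_int_end_apply (c : ℤ) (g : CuspForm (Gamma0 N) 2) :
    (algebraMap ℤ (Module.End ℂ (CuspForm (Gamma0 N) 2)) c) g = c • g := by
  simp

theorem Div3.heckeAlgebra [NeZero N] {t : Module.End ℂ (CuspForm (Gamma0 N) 2)}
    (ht : t ∈ CuspForm.heckeAlgebra N 2 ∅) : ∀ {g : CuspForm (Gamma0 N) 2}, Div3 g → Div3 (t g) := by
  induction ht using Algebra.adjoin_induction with
  | mem x hx =>
    intro g hg
    rcases hx with ⟨ℓ, hℓ, hℓN, -, rfl⟩ | ⟨q, hqN, hq, -, rfl⟩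
    · exact hg.heckeT hℓ hℓN
    · exact hg.heckeU hq hqN
  | algebraMap r =>
    intro g hg
    rw [algebraMap_int_end_apply]
    exact hg.zsmul r
  | add x y _ _ hx hy =>
    intro g hg
    exact (hx hg).add (hy hg)
  | mul x y _ _ hx hy =>
    intro g hg
    exact hx (hy hg)

/-- a form with integral coefficients congruent to `a` mod 3 -/
structure Realizes (f : CuspForm (Gamma0 N) 2) (a : ℕ → ℤ) (af : ℕ → ℤ) : Prop where
  coeff : ∀ n, (af n : ℂ) = qCoeff ⇑f n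
  cong : ∀ n, (3 : ℤ) ∣ af n - a n

theorem div3_of_int {g : CuspForm (Gamma0 N) 2} (b : ℕ → ℤ) (hb : ∀ n, qCoeff ⇑g n = (b n : ℂ))
    (h3 : ∀ n, (3 : ℤ) ∣ b n) : Div3 g := by
  intro n
  obtain ⟨m, hm⟩ := h3 n
  exact ⟨m, by rw [hb, hm]; push_cast; ring⟩

theorem Realizes.heckeT {f : CuspForm (Gamma0 N) 2} {a af : ℕ → ℤ} (hf : Realizes f a af)
    (heig : FormalHecke.IsEigensystem
      (fun ℓ => if ℓ ∣ N then 0 else ((chiNegThree ℓ : ℤ) : ℤ)) a)
    {ℓ : ℕ} (hℓ : ℓ.Prime) (hℓN : ¬ ℓ ∣ N) :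
    Div3 (CuspForm.heckeTLin 2 hℓ hℓN f - a ℓ • f) := by
  refine div3_of_int
    (fun n => af (ℓ * n) + ℓ * (if ℓ ∣ n then af (n / ℓ) else 0) - a ℓ * af n) ?_ ?_
  · intro n
    rw [qCoeff_sub, qCoeff_zsmul, qCoeff_heckeTLin, ← hf.coeff, ← hf.coeff, ← hf.coeff]
    split_ifs <;> push_cast <;> ring
  · intro n
    have h1 := heig.2 ℓ hℓ n
    simp only [if_neg hℓN] at h1
    obtain ⟨x, hx⟩ := hf.cong (ℓ * n)
    obtain ⟨y, hy⟩ := hf.cong (n / ℓ)
    obtain ⟨z, hz⟩ := hf.cong n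
    obtain ⟨w, hw⟩ := three_dvd_sub_chiNegThree ℓ
    have hx' : af (ℓ * n) = a (ℓ * n) + 3 * x := by linarith
    have hy' : af (n / ℓ) = a (n / ℓ) + 3 * y := by linarith
    have hz' : af n = a n + 3 * z := by linarith
    have hw' : (ℓ : ℤ) = chiNegThree ℓ + 3 * w := by linarith
    split_ifs at h1 ⊢ with hdvd
    · refine ⟨x + chiNegThree ℓ * y + w * a (n / ℓ) + 3 * w * y - a ℓ * z, ?_⟩
      rw [hx', hy', hz', hw']
      linear_combination h1
    · refine ⟨x - a ℓ * z, ?_⟩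
      rw [hx', hz']
      linear_combination h1

theorem Realizes.heckeU [NeZero N] {f : CuspForm (Gamma0 N) 2} {a af : ℕ → ℤ} (hf : Realizes f a af)
    (heig : FormalHecke.IsEigensystem
      (fun ℓ => if ℓ ∣ N then 0 else ((chiNegThree ℓ : ℤ) : ℤ)) a)
    {q : ℕ} (hq : q.Prime) (hqN : q ∣ N) :
    Div3 (CuspForm.heckeULin 2 hqN f - a q • f) := by
  refine div3_of_int (fun n => af (q * n) - a q * af n) ?_ ?_
  · intro n
    rw [qCoeff_sub, qCoeff_zsmul, qCoeff_heckeULin hq, ← hf.coeff, ← hf.coeff]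
    push_cast; ring
  · intro n
    have h1 := heig.2 q hq n
    simp only [if_pos hqN, zero_mul, add_zero] at h1
    obtain ⟨x, hx⟩ := hf.cong (q * n)
    obtain ⟨z, hz⟩ := hf.cong n
    have hx' : af (q * n) = a (q * n) + 3 * x := by linarith
    have hz' : af n = a n + 3 * z := by linarith
    refine ⟨x - a q * z, ?_⟩
    rw [hx', hz']
    linear_combination h1

theorem Realizes.heckeAlgebra [NeZero N] {f : CuspForm (Gamma0 N) 2} {a af : ℕ → ℤ}
    (hf : Realizes f a af)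
    (heig : FormalHecke.IsEigensystem
      (fun ℓ => if ℓ ∣ N then 0 else ((chiNegThree ℓ : ℤ) : ℤ)) a)
    {t : Module.End ℂ (CuspForm (Gamma0 N) 2)}
    (ht : t ∈ CuspForm.heckeAlgebra N 2 ∅) : ∃ c : ℤ, Div3 (t f - c • f) := by
  induction ht using Algebra.adjoin_induction with
  | mem x hx =>
    rcases hx with ⟨ℓ, hℓ, hℓN, -, rfl⟩ | ⟨q, hqN, hq, -, rfl⟩
    · exact ⟨a ℓ, hf.heckeT heig hℓ hℓN⟩
    · exact ⟨a q, hf.heckeU heig hq hqN⟩
  | algebraMap r =>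
    refine ⟨r, ?_⟩
    rw [algebraMap_int_end_apply, sub_self]
    exact Div3.zero
  | add x y _ _ hx hy =>
    obtain ⟨c, hc⟩ := hx
    obtain ⟨d, hd⟩ := hy
    refine ⟨c + d, ?_⟩
    have : (x + y) f - (c + d) • f = (x f - c • f) + (y f - d • f) := by
      rw [LinearMap.add_apply, add_smul]; abel
    rw [this]
    exact hc.add hd
  | mul x y hx' _ hx hy =>
    obtain ⟨c, hc⟩ := hx
    obtain ⟨d, hd⟩ := hy
    refine ⟨c * d, ?_⟩
    have : (x * y) f - (c * d) • f = x (y f - d • f) + d • (x f - c • f) := by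
      rw [Module.End.mul_apply, map_sub, map_zsmul, smul_sub, smul_smul, mul_comm d c]; abel
    rw [this]
    exact (Div3.heckeAlgebra hx' hd).add (hc.zsmul d)

theorem Realizes.not_div3_zsmul {f : CuspForm (Gamma0 N) 2} {a af : ℕ → ℤ} (hf : Realizes f a af)
    (ha1 : a 1 = 1) {c : ℤ} (h : Div3 (c • f)) : (3 : ℤ) ∣ c := by
  obtain ⟨m, hm⟩ := h 1
  rw [qCoeff_zsmul, ← hf.coeff] at hm
  have hm' : c * af 1 = 3 * m := by exact_mod_cast hm
  obtain ⟨x, hx⟩ := hf.cong 1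
  rw [ha1] at hx
  have : af 1 = 1 + 3 * x := by linarith
  rw [this] at hm'
  exact ⟨m - c * x, by linarith⟩

theorem Realizes.div3_zsmul {f : CuspForm (Gamma0 N) 2} {a af : ℕ → ℤ} (hf : Realizes f a af)
    {c : ℤ} (h : (3 : ℤ) ∣ c) : Div3 (c • f) := by
  obtain ⟨d, rfl⟩ := h
  intro n
  exact ⟨d * af n, by rw [qCoeff_zsmul, ← hf.coeff]; push_cast; ring⟩

/-- Lemma D: existence of the prime ideal `𝔪` of the Hecke algebra attached to the mod 3 system. -/
theorem exists_prime_ideal [NeZero N] {a : ℕ → ℤ}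
    (heig : FormalHecke.IsEigensystem
      (fun ℓ => if ℓ ∣ N then 0 else ((chiNegThree ℓ : ℤ) : ℤ)) a)
    (hreal : CuspForm.IsLatticeRealized N a) :
    ∃ 𝔪 : Ideal (CuspForm.heckeAlgebra N 2 ∅), 𝔪.IsPrime ∧
      ((3 : ℕ) : CuspForm.heckeAlgebra N 2 ∅) ∈ 𝔪 ∧
      ∀ (ℓ : ℕ) (hℓ : ℓ.Prime) (hℓN : ¬ ℓ ∣ N),
        CuspForm.heckeAlgebra.T hℓ hℓN (Set.notMem_empty ℓ) -
          ((a ℓ : ℤ) : CuspForm.heckeAlgebra N 2 ∅) ∈ 𝔪 := by
  obtain ⟨f, -, af, haf, hcong⟩ := hreal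
  have hf : Realizes f a af := ⟨haf, fun n => by
    have := dvd_add (hcong n) (three_dvd_bridgeProduct_sub a n)
    simpa using this⟩
  let 𝔪 : Ideal (CuspForm.heckeAlgebra N 2 ∅) :=
    { carrier := {t | Div3 ((t : Module.End ℂ (CuspForm (Gamma0 N) 2)) f)}
      add_mem' := fun {s t} hs ht => by
        simpa using Div3.add hs ht
      zero_mem' := by
        simpa using Div3.zero
      smul_mem' := fun s t ht => by
        simpa using Div3.heckeAlgebra s.2 ht }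
  have hmem : ∀ t : CuspForm.heckeAlgebra N 2 ∅,
      t ∈ 𝔪 ↔ Div3 ((t : Module.End ℂ (CuspForm (Gamma0 N) 2)) f) := fun t => Iff.rfl
  have hcast : ∀ c : ℤ, (((c : ℤ) : CuspForm.heckeAlgebra N 2 ∅) :
      Module.End ℂ (CuspForm (Gamma0 N) 2)) f = c • f := by
    intro c
    simp
  have key : ∀ t : CuspForm.heckeAlgebra N 2 ∅, ∀ c : ℤ,
      Div3 ((t : Module.End ℂ (CuspForm (Gamma0 N) 2)) f - c • f) → (t ∈ 𝔪 ↔ (3 : ℤ) ∣ c) := by
    intro t c hc
    rw [hmem]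
    constructor
    · intro ht
      apply hf.not_div3_zsmul heig.1
      have := ht.sub hc
      simpa using this
    · intro h3
      have := hc.add (hf.div3_zsmul h3)
      simpa using this
  refine ⟨𝔪, ⟨?_, ?_⟩, ?_, ?_⟩
  · intro htop
    have h1 : (1 : CuspForm.heckeAlgebra N 2 ∅) ∈ 𝔪 := htop ▸ Submodule.mem_top
    have := (key 1 1 (by simpa using Div3.zero)).1 h1
    omega
  · intro s t hst
    obtain ⟨c, hc⟩ := hf.heckeAlgebra heig s.2
    obtain ⟨d, hd⟩ := hf.heckeAlgebra heig t.2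
    have hcd : Div3 (((s * t : CuspForm.heckeAlgebra N 2 ∅) :
        Module.End ℂ (CuspForm (Gamma0 N) 2)) f - (c * d) • f) := by
      have : ((s * t : CuspForm.heckeAlgebra N 2 ∅) :
        Module.End ℂ (CuspForm (Gamma0 N) 2)) f - (c * d) • f =
          (s : Module.End ℂ (CuspForm (Gamma0 N) 2))
            ((t : Module.End ℂ (CuspForm (Gamma0 N) 2)) f - d • f) +
          d • ((s : Module.End ℂ (CuspForm (Gamma0 N) 2)) f - c • f) := by
        rw [Subalgebra.coe_mul, Module.End.mul_apply, map_sub, map_zsmul, smul_sub, smul_smul,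
          mul_comm d c]; abel
      rw [this]
      exact (Div3.heckeAlgebra s.2 hd).add (hc.zsmul d)
    rw [key s c hc, key t d hd]
    exact (Int.prime_three.dvd_mul).1 ((key _ _ hcd).1 hst)
  · rw [hmem]
    have : (((3 : ℕ) : CuspForm.heckeAlgebra N 2 ∅) :
      Module.End ℂ (CuspForm (Gamma0 N) 2)) f = (3 : ℤ) • f := by
      have := hcast 3
      simpa using this
    rw [this]
    exact hf.div3_zsmul (dvd_refl 3)
  · intro ℓ hℓ hℓN
    rw [hmem]
    have := hf.heckeT heig hℓ hℓN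
    simpa using this

end Fermat.Agent.S49
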